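/-
T1B / brick H, slice H-RES (helper49), file 1: pure Laurent-series lemmas (the `q`-side).

* `coeff_mul_eq_zero_of_lt` : vanishing of a coefficient of a product by support bounds;
* `theta_C_mul`             : `θ (C c * s) = C c * θ s`;
* `coeff_zero_theta`        : the constant coefficient of `θ s` vanishes;
* `coeff_zero_inv_mul_theta`: the constant coefficient of `s⁻¹ θ s` is the order of `s`
  ("`res dlog s = ord s`").
-/
import Mathlib
import Fermat.Agent.IG.PR.Theta20

set_option autoImplicit false

noncomputable section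

namespace Fermat.Agent.T1B.HRes49

open HahnSeries Fermat.Agent.IG.PR.Theta20

section Ring

variable {R : Type*} [CommRing R]

/-- If `x` vanishes below `a`, `y` vanishes below `b` and `n < a + b` then `(x y)_n = 0`. -/
theorem coeff_mul_eq_zero_of_lt {x y : LaurentSeries R} {a b n : ℤ}
    (hx : ∀ i < a, x.coeff i = 0) (hy : ∀ j < b, y.coeff j = 0) (hn : n < a + b) :
    (x * y).coeff n = 0 := by
  rw [HahnSeries.coeff_mul]
  apply Finset.sum_eq_zero
  intro ij hij
  have h := (Finset.mem_addAntidiagonal.mp hij).2.2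
  by_cases hi : ij.1 < a
  · rw [hx _ hi, zero_mul]
  · have hj : ij.2 < b := by omega
    rw [hy _ hj, mul_zero]

theorem theta_C_mul (c : R) (s : LaurentSeries R) :
    theta (HahnSeries.C c * s) = HahnSeries.C c * theta s := by
  rw [theta_mul, theta_C, zero_mul, zero_add]

theorem coeff_zero_theta (s : LaurentSeries R) : (theta s).coeff 0 = 0 := by
  rw [theta_coeff, Int.cast_zero, zero_mul]

theorem coeff_zero_mul_theta_of_nonneg {a s : LaurentSeries R}
    (ha : ∀ i < 0, a.coeff i = 0) (hs : ∀ j < 0, s.coeff j = 0) :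
    (a * theta s).coeff 0 = 0 := by
  refine coeff_mul_eq_zero_of_lt (a := 0) (b := 1) ha (fun j hj => ?_) (by norm_num)
  rw [theta_coeff]
  rcases (by omega : j < 0 ∨ j = 0) with h | h
  · rw [hs j h, mul_zero]
  · rw [h, Int.cast_zero, zero_mul]

end Ring

section Field

variable {K : Type*} [Field K]

theorem coeff_eq_zero_of_lt_order' {s : LaurentSeries K} {i : ℤ} (h : i < s.order) :
    s.coeff i = 0 := HahnSeries.coeff_eq_zero_of_lt_order h

/-- `res (dlog s) = ord s`: the constant coefficient of `s⁻¹ θ s` is the order of `s`. -/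
theorem coeff_zero_inv_mul_theta {s : LaurentSeries K} (hs : s ≠ 0) :
    (s⁻¹ * theta s).coeff 0 = (s.order : K) := by
  set n : ℤ := s.order with hn
  set r : LaurentSeries K := theta s - HahnSeries.C (n : K) * s with hr
  have hr0 : ∀ j < n + 1, r.coeff j = 0 := by
    intro j hj
    rw [hr, HahnSeries.coeff_sub, theta_coeff, HahnSeries.C_mul_eq_smul, HahnSeries.coeff_smul,
      smul_eq_mul]
    rcases (by omega : j < n ∨ j = n) with h | h
    · rw [HahnSeries.coeff_eq_zero_of_lt_order (hn ▸ h), mul_zero, mul_zero, sub_zero]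
    · rw [h, sub_self]
  have hsinv : ∀ i < -n, (s⁻¹).coeff i = 0 := by
    intro i hi
    apply HahnSeries.coeff_eq_zero_of_lt_order
    have h1 : (s * s⁻¹).order = s.order + (s⁻¹).order :=
      HahnSeries.order_mul hs (inv_ne_zero hs)
    rw [mul_inv_cancel₀ hs, HahnSeries.order_one] at h1
    omega
  have hdecomp : s⁻¹ * theta s = HahnSeries.C (n : K) + s⁻¹ * r := by
    rw [hr, mul_sub, mul_comm (HahnSeries.C (n : K)) s, ← mul_assoc, inv_mul_cancel₀ hs, one_mul]
    ring
  rw [hdecomp, HahnSeries.coeff_add,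
    coeff_mul_eq_zero_of_lt hsinv hr0 (by omega : (0 : ℤ) < -n + (n + 1)), add_zero,
    HahnSeries.C_apply, HahnSeries.coeff_single_same]

end Field

end Fermat.Agent.T1B.HRes49
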