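/-
T1B / brick H, slice H-RES (helper49), file 2: **the residue at a Laurent-series place is the
`q`-expansion residue**.

Setting: `K` algebraically closed of characteristic zero, `F / K` a function field in one variable
(`IsGen K x`), `τ : F →+* K((q))` a `K`-embedding (`τ c = C c`), `v : Place K F` the place cut out
by `τ` (`ord_v f = order (τ f)`).  Then for every differential `ω = f dg`

  `res_v (f dg) = coeff_0 (τ f * θ (τ g))`,      `θ = q d/dq`.

* `qPair τ hτ`, `qRes τ hτ : Ω[F⁄K] →ₗ[K] K` with `qRes_smul_D`;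
* `residue_eq_qRes`, `residue_smul_D_eq_coeff`.
-/
import Mathlib
import Fermat.Agent.RR.ResidueGlob
import Fermat.Agent.T1B.HRes49.QSide

set_option autoImplicit false
set_option linter.unusedSectionVars false
set_option linter.style.haveILetI false

noncomputable section

namespace Fermat.Agent.T1B.HRes49

open AlgebraicCurve KaehlerDifferential HahnSeries
open Fermat.Agent.X0.FF Fermat.Agent.RR Fermat.Agent.RR.AbsResidue Fermat.Agent.RR.LocalPrep
  Fermat.Agent.RR.LocalRes Fermat.Agent.RR.LocalResMain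
open Fermat.Agent.IG.PR.Theta20

variable {K F : Type*} [Field K] [Field F] [Algebra K F]

/-! ### The `q`-side residue -/

section QPairing

variable (τ : F →+* LaurentSeries K) (hτ : ∀ c : K, τ (algebraMap K F c) = HahnSeries.C c)

include hτ in
theorem tau_smul (c : K) (f : F) : τ (c • f) = HahnSeries.C c * τ f := by
  rw [Algebra.smul_def, map_mul, hτ]

/-- The `q`-side pairing `(f, g) ↦ coeff_0 (τ f * θ (τ g))`. -/
def qPair : F →ₗ[K] F →ₗ[K] K :=
  LinearMap.mk₂ K (fun f g => (τ f * theta (τ g)).coeff 0)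
    (fun f f' g => by
      show (τ (f + f') * theta (τ g)).coeff 0 = _
      rw [map_add, add_mul, HahnSeries.coeff_add])
    (fun c f g => by
      show (τ (c • f) * theta (τ g)).coeff 0 = _
      rw [tau_smul τ hτ, mul_assoc, HahnSeries.C_mul_eq_smul, HahnSeries.coeff_smul])
    (fun f g g' => by
      show (τ f * theta (τ (g + g'))).coeff 0 = _
      rw [map_add, map_add, mul_add, HahnSeries.coeff_add])
    (fun c f g => by
      show (τ f * theta (τ (c • g))).coeff 0 = _
      rw [tau_smul τ hτ, theta_C_mul, mul_left_comm, HahnSeries.C_mul_eq_smul,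
        HahnSeries.coeff_smul])

theorem qPair_apply (f g : F) : qPair τ hτ f g = (τ f * theta (τ g)).coeff 0 := rfl

theorem qPair_leibniz (f g h : F) :
    qPair τ hτ f (g * h) = qPair τ hτ (f * g) h + qPair τ hτ (f * h) g := by
  simp only [qPair_apply, map_mul, theta_mul]
  rw [← HahnSeries.coeff_add]
  congr 1
  ring

/-- The `q`-side residue `ω ↦ coeff_{-1}`, as a `K`-linear form on differentials. -/
def qRes : Ω[F⁄K] →ₗ[K] K :=
  OmegaLift.lift (qPair τ hτ) (qPair_leibniz τ hτ)

theorem qRes_smul_D (f g : F) :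
    qRes τ hτ (f • D K F g) = (τ f * theta (τ g)).coeff 0 :=
  OmegaLift.lift_smul_D _ _ f g

theorem qRes_D (g : F) : qRes τ hτ (D K F g) = 0 := by
  rw [← one_smul F (D K F g), qRes_smul_D, map_one, one_mul, coeff_zero_theta]

end QPairing

/-! ### Comparison -/

section Compare

variable [IsAlgClosed K] [CharZero K] {x : F} (hx : IsGen K x)

include hx in
theorem residue_D (v : Place K F) (g : F) : residue hx v (D K F g) = 0 := by
  rw [← one_smul F (D K F g), residue_smul_D, mulOp_one]
  exact res_one_left (inE_mulOp v (hres_of_isGen hx v) g)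

variable (τ : F →+* LaurentSeries K) (hτ : ∀ c : K, τ (algebraMap K F c) = HahnSeries.C c)
  (v : Place K F) (hv : ∀ f : F, f ≠ 0 → v.ord f = (τ f).order)

include hv in
theorem coeff_tau_eq_zero_of_mem {a : F} (ha : a ∈ v.toValuationSubring) :
    ∀ i < 0, (τ a).coeff i = 0 := by
  intro i hi
  rcases eq_or_ne a 0 with rfl | ha0
  · rw [map_zero, HahnSeries.coeff_zero]
  · apply HahnSeries.coeff_eq_zero_of_lt_order
    rw [← hv a ha0]
    exact lt_of_lt_of_le hi (ffp_ord_nonneg_of_mem v ha)

/-- `t⁻ᵐ⁻² dt` is exact in characteristic zero. -/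
theorem inv_pow_smul_D_eq (t : F) (m : ℕ) :
    (t⁻¹) ^ (m + 2) • D K F t =
      (-((m + 1 : ℕ) : K))⁻¹ • D K F ((t⁻¹) ^ (m + 1)) := by
  have hm : ((m + 1 : ℕ) : K) ≠ 0 := Nat.cast_ne_zero.mpr (Nat.succ_ne_zero m)
  have hD : D K F ((t⁻¹) ^ (m + 1)) = (-((m + 1 : ℕ) : K)) • ((t⁻¹) ^ (m + 2) • D K F t) := by
    rw [Derivation.leibniz_pow, Derivation.leibniz_inv, Nat.add_sub_cancel, smul_smul,
      neg_smul, ← smul_neg, Nat.cast_smul_eq_nsmul K]
    congr 1
    rw [mul_neg, neg_smul, ← _root_.pow_add]
  rw [hD, smul_smul, inv_mul_cancel₀ (neg_ne_zero.mpr hm), one_smul]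

include hx hv in
/-- The two residues agree on the monomial differentials `t⁻ᵐ⁻¹ dt`. -/
theorem residue_eq_qRes_monomial {t : F} (ht : v.ord t = 1) (m : ℕ) :
    residue hx v ((t⁻¹) ^ (m + 1) • D K F t) = qRes τ hτ ((t⁻¹) ^ (m + 1) • D K F t) := by
  have ht0 : t ≠ 0 := by rintro rfl; simp at ht
  rcases m with _ | m
  · rw [zero_add, pow_one, qRes_smul_D, map_inv₀, coeff_zero_inv_mul_theta ((map_ne_zero τ).mpr ht0),
      ← hv t ht0, ht, Int.cast_one]
    exact resΩ_inv_smul_D_uniformizer v _ ht
  · rw [show m + 1 + 1 = m + 2 from rfl, inv_pow_smul_D_eq t m, map_smul, map_smul,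
      residue_D hx, qRes_D]

include hx hv in
/-- The two residues agree on `a dt` for every `a` (induction on the pole order of `a`). -/
theorem residue_eq_qRes_smul_D_uniformizer {t : F} (ht : v.ord t = 1) :
    ∀ (M : ℕ) (a : F), -(M : ℤ) ≤ v.ord a →
      residue hx v (a • D K F t) = qRes τ hτ (a • D K F t) := by
  have ht0 : t ≠ 0 := by rintro rfl; simp at ht
  have htmem : t ∈ v.toValuationSubring := ffp_mem_of_ord_nonneg v (by rw [ht]; exact zero_le_one)
  intro M
  induction M with
  | zero =>
    intro a ha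
    have hamem : a ∈ v.toValuationSubring := ffp_mem_of_ord_nonneg v (by simpa using ha)
    rw [qRes_smul_D, coeff_zero_mul_theta_of_nonneg (coeff_tau_eq_zero_of_mem τ v hv hamem)
      (coeff_tau_eq_zero_of_mem τ v hv htmem)]
    exact resΩ_smul_D_eq_zero v _ hamem htmem
  | succ M ih =>
    intro a ha
    set b : F := a * t ^ (M + 1) with hb
    have hbmem : b ∈ v.toValuationSubring := by
      rcases eq_or_ne a 0 with rfl | ha0
      · rw [hb, zero_mul]; exact zero_mem _
      · apply ffp_mem_of_ord_nonneg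
        rw [hb, v.ord_mul ha0 (pow_ne_zero _ ht0), ← zpow_natCast, v.ord_zpow, ht]
        push_cast at ha ⊢
        omega
    obtain ⟨c, hc⟩ := hres_of_isGen hx v b hbmem
    set a' : F := (b - algebraMap K F c) * (t⁻¹) ^ (M + 1) with ha'
    have hdecomp : a = c • (t⁻¹) ^ (M + 1) + a' := by
      rw [ha', hb, Algebra.smul_def, inv_pow]
      field_simp
      ring
    have ha'ord : -(M : ℤ) ≤ v.ord a' := by
      rcases hc with hc | hc
      · rw [ha', hc, sub_self, zero_mul, v.ord_zero]
        omega
      · have hne : b - algebraMap K F c ≠ 0 := by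
          intro h0; rw [h0, v.ord_zero] at hc; exact lt_irrefl _ hc
        rw [ha', v.ord_mul hne (pow_ne_zero _ (inv_ne_zero ht0)), ← zpow_natCast, v.ord_zpow,
          v.ord_inv, ht]
        push_cast
        omega
    have hsplit : a • D K F t = c • ((t⁻¹) ^ (M + 1) • D K F t) + a' • D K F t := by
      conv_lhs => rw [hdecomp]
      rw [add_smul, smul_assoc]
    rw [hsplit, map_add, map_add, (residue hx v).map_smul c, (qRes τ hτ).map_smul c,
      residue_eq_qRes_monomial hx τ hτ v hv ht M, ih a' ha'ord]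

include hx hv in
/-- **The residue at a Laurent-series place is the `q`-expansion residue.** -/
theorem residue_eq_qRes (ω : Ω[F⁄K]) : residue hx v ω = qRes τ hτ ω := by
  haveI := dCoordGenerates hx v
  have hω := (v.differentialCoeff_smul_dCoord ω).symm
  rw [ffu_dCoord] at hω
  rw [hω]
  set a : F := v.differentialCoeff ω
  have hM : -((-(v.ord a)).toNat : ℤ) ≤ v.ord a := by
    have := Int.self_le_toNat (-(v.ord a))
    omega
  exact residue_eq_qRes_smul_D_uniformizer hx τ hτ v hv (ffu_ord v) _ a hM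

include hx hτ hv in
/-- **(H-RES i)** `res_v (f dg) = coeff_0 (τ f * θ (τ g))`. -/
theorem residue_smul_D_eq_coeff (f g : F) :
    residue hx v (f • D K F g) = (τ f * theta (τ g)).coeff 0 := by
  rw [residue_eq_qRes hx τ hτ v hv, qRes_smul_D]

end Compare

end Fermat.Agent.T1B.HRes49
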