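/-
T1B / brick H, slice H-RES (helper49), file 3: **residues of logarithmic differentials**.

Setting: `K` algebraically closed of characteristic zero, `F / K` a function field in one variable
(`IsGen K x`), `z : Place K F`.

* `dlogΩ u = u⁻¹ • D u`, `dlogΩ_mul`, `dlogΩ_zpow`;
* `valAt hx z f : K` — the value `f(z)` (`0` if `f` is not regular at `z`);
* `residue_smul_dlogΩ` : **(H-RES ii)** `res_z (f du/u) = ord_z(u) * f(z)` for `f` regular at `z`.
-/
import Mathlib
import Fermat.Agent.RR.ResidueGlob
import Fermat.Agent.ES.RED.PlaceValue13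

set_option autoImplicit false
set_option linter.unusedSectionVars false
set_option linter.style.haveILetI false

noncomputable section

namespace Fermat.Agent.T1B.HRes49

open AlgebraicCurve KaehlerDifferential
open Fermat.Agent.X0.FF Fermat.Agent.RR Fermat.Agent.RR.AbsResidue Fermat.Agent.RR.LocalPrep
  Fermat.Agent.RR.LocalRes Fermat.Agent.RR.LocalResMain
open Fermat.Agent.ES.RED.PlaceValue13

variable {K F : Type*} [Field K] [Field F] [Algebra K F]

/-! ### Logarithmic differentials -/

/-- `dlog u = du / u` as a Kähler differential. -/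
def dlogΩ (u : F) : Ω[F⁄K] := u⁻¹ • D K F u

theorem dlogΩ_def (u : F) : dlogΩ (K := K) u = u⁻¹ • D K F u := rfl

theorem dlogΩ_mul {a b : F} (ha : a ≠ 0) (hb : b ≠ 0) :
    dlogΩ (K := K) (a * b) = dlogΩ (K := K) a + dlogΩ (K := K) b := by
  unfold dlogΩ
  have h1 : (a * b)⁻¹ * a = b⁻¹ := by field_simp
  have h2 : (a * b)⁻¹ * b = a⁻¹ := by field_simp
  rw [Derivation.leibniz, smul_add, smul_smul, smul_smul, h1, h2, add_comm]

theorem dlogΩ_zpow {t : F} (ht : t ≠ 0) (n : ℤ) :
    dlogΩ (K := K) (t ^ n) = (n : F) • dlogΩ (K := K) t := by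
  unfold dlogΩ
  have h1 : (t ^ n)⁻¹ * t ^ (n - 1) = t⁻¹ := by
    rw [← zpow_neg, ← zpow_add₀ ht]
    have : -n + (n - 1) = -1 := by ring
    rw [this, zpow_neg_one]
  rw [Derivation.leibniz_zpow, ← Int.cast_smul_eq_zsmul F n, smul_smul, smul_smul, smul_smul,
    mul_right_comm, h1, mul_comm]

/-! ### The value of a function at a place -/

section Value

variable [IsAlgClosed K] {x : F} (hx : IsGen K x) (z : Place K F)

open Classical in
/-- The value `f(z)` of `f` at the place `z` (`0` if `f` has a pole at `z`). -/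
def valAt (f : F) : K :=
  if h : f ∈ z.toValuationSubring then valueHom hx z ⟨f, h⟩ else 0

theorem valAt_of_mem {f : F} (h : f ∈ z.toValuationSubring) :
    valAt hx z f = valueHom hx z ⟨f, h⟩ := dif_pos h

theorem valAt_of_notMem {f : F} (h : f ∉ z.toValuationSubring) : valAt hx z f = 0 := dif_neg h

/-- `f(z) = c ↔ f = c ∨ 0 < ord_z (f - c)`, for `f` regular at `z`. -/
theorem valAt_eq_iff {f : F} (h : f ∈ z.toValuationSubring) (c : K) :
    valAt hx z f = c ↔ (f = algebraMap K F c ∨ 0 < z.ord (f - algebraMap K F c)) := by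
  rw [valAt_of_mem hx z h]
  exact valueHom_eq_iff hx z ⟨f, h⟩ c

theorem valAt_spec {f : F} (h : f ∈ z.toValuationSubring) :
    f = algebraMap K F (valAt hx z f) ∨ 0 < z.ord (f - algebraMap K F (valAt hx z f)) :=
  (valAt_eq_iff hx z h _).mp rfl

theorem valAt_algebraMap (c : K) : valAt hx z (algebraMap K F c) = c := by
  have h : algebraMap K F c ∈ z.toValuationSubring :=
    ffp_mem_of_ord_nonneg z (by rw [ffp_ord_algebraMap])
  exact (valAt_eq_iff hx z h c).mpr (Or.inl rfl)

theorem valAt_add {f g : F} (hf : f ∈ z.toValuationSubring) (hg : g ∈ z.toValuationSubring) :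
    valAt hx z (f + g) = valAt hx z f + valAt hx z g := by
  rw [valAt_of_mem hx z hf, valAt_of_mem hx z hg,
    valAt_of_mem hx z (z.toValuationSubring.add_mem _ _ hf hg), ← map_add]
  rfl

theorem valAt_mul {f g : F} (hf : f ∈ z.toValuationSubring) (hg : g ∈ z.toValuationSubring) :
    valAt hx z (f * g) = valAt hx z f * valAt hx z g := by
  rw [valAt_of_mem hx z hf, valAt_of_mem hx z hg,
    valAt_of_mem hx z (z.toValuationSubring.mul_mem _ _ hf hg), ← map_mul]
  rfl

/-- The value does not depend on the generator. -/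
theorem valAt_congr {x' : F} (hx' : IsGen K x') (f : F) : valAt hx z f = valAt hx' z f := by
  unfold valAt
  rw [valueHom_congr hx z hx']

end Value

/-! ### The residue of `f du/u` -/

section Residue

variable [IsAlgClosed K] [CharZero K] {x : F} (hx : IsGen K x) (z : Place K F)

/-- `res_z (f dt/t) = f(z)` for a uniformizer `t` and `f` regular at `z`. -/
theorem residue_smul_dlogΩ_uniformizer {t f : F} (ht : z.ord t = 1)
    (hf : f ∈ z.toValuationSubring) :
    residue hx z (f • dlogΩ (K := K) t) = valAt hx z f := by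
  have ht0 : t ≠ 0 := by rintro rfl; simp at ht
  have htmem : t ∈ z.toValuationSubring := ffp_mem_of_ord_nonneg z (by rw [ht]; exact zero_le_one)
  set c : K := valAt hx z f with hc
  set f' : F := (f - algebraMap K F c) * t⁻¹ with hf'
  have hspec := valAt_spec hx z hf
  rw [← hc] at hspec
  have hf'mem : f' ∈ z.toValuationSubring := by
    rcases hspec with h | h
    · rw [hf', ← h, sub_self, zero_mul]; exact zero_mem _
    · have hne : f - algebraMap K F c ≠ 0 := by
        intro h0; rw [h0, z.ord_zero] at h; exact lt_irrefl _ h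
      apply ffp_mem_of_ord_nonneg
      rw [hf', z.ord_mul hne (inv_ne_zero ht0), z.ord_inv, ht]
      omega
  have hdecomp : f • dlogΩ (K := K) t = c • (t⁻¹ • D K F t) + f' • D K F t := by
    unfold dlogΩ
    rw [hf', ← smul_assoc c, ← add_smul, smul_smul]
    congr 1
    rw [Algebra.smul_def]
    ring
  rw [hdecomp, map_add, map_smul]
  have h1 : residue hx z (t⁻¹ • D K F t) = 1 := resΩ_inv_smul_D_uniformizer z _ ht
  have h2 : residue hx z (f' • D K F t) = 0 := resΩ_smul_D_eq_zero z _ hf'mem htmem
  rw [h1, h2, add_zero, smul_eq_mul, mul_one]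

/-- `res_z (f dw/w) = 0` for a unit `w` at `z` and `f` regular at `z`. -/
theorem residue_smul_dlogΩ_unit {w f : F} (hw : z.ord w = 0)
    (hf : f ∈ z.toValuationSubring) :
    residue hx z (f • dlogΩ (K := K) w) = 0 := by
  have hwmem : w ∈ z.toValuationSubring := ffp_mem_of_ord_nonneg z hw.ge
  have hwinv : w⁻¹ ∈ z.toValuationSubring :=
    ffp_mem_of_ord_nonneg z (by rw [z.ord_inv, hw, neg_zero])
  unfold dlogΩ
  rw [smul_smul]
  exact resΩ_smul_D_eq_zero z _ (z.toValuationSubring.mul_mem _ _ hf hwinv) hwmem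

/-- **(H-RES ii)** `res_z (f du/u) = ord_z(u) * f(z)` for `f` regular at `z`. -/
theorem residue_smul_dlogΩ {u f : F} (hu : u ≠ 0) (hf : f ∈ z.toValuationSubring) :
    residue hx z (f • dlogΩ (K := K) u) = (z.ord u : K) * valAt hx z f := by
  set t : F := ((ffu z : z.toValuationSubring) : F) with ht
  have ht0 : t ≠ 0 := ffu_ne_zero z
  have htord : z.ord t = 1 := ffu_ord z
  obtain ⟨w, hw⟩ := z.exists_unit_mul_zpow hu (ffu_irreducible z)
  rw [← ht] at hw
  set wF : F := ((w : z.toValuationSubring) : F) with hwF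
  have hw0 : wF ≠ 0 := by
    rw [hwF]
    simp [ne_eq, ZeroMemClass.coe_eq_zero]
  have hword : z.ord wF = 0 := z.ord_coe_unit w
  have hdl : dlogΩ (K := K) u = dlogΩ (K := K) wF + (z.ord u : F) • dlogΩ (K := K) t := by
    conv_lhs => rw [hw]
    rw [dlogΩ_mul hw0 (zpow_ne_zero _ ht0), dlogΩ_zpow ht0]
  have hcast : ((z.ord u : ℤ) : F) = algebraMap K F ((z.ord u : ℤ) : K) := by simp
  rw [hdl, smul_add, map_add, residue_smul_dlogΩ_unit hx z hword hf, zero_add,
    smul_comm, hcast, algebraMap_smul, map_smul,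
    residue_smul_dlogΩ_uniformizer hx z htord hf, smul_eq_mul]

end Residue

end Fermat.Agent.T1B.HRes49
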