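/-
T1B / brick H, slice H-RES (helper49), file 4: **the global sum formulas**.

Setting: `K` algebraically closed of characteristic zero, `F / K` a function field in one variable
(`IsGen K x`), `v : Place K F` a distinguished place ("`∞`").

* `finite_support_residue`, `residue_add_finsum_ne` : `res_v ω + ∑_{z ≠ v} res_z ω = 0`;
* `residue_eq_zero_of_regular_away` : **(H-RES iii-a)** a differential regular away from `v` has
  residue zero at `v`;
* `residue_dlogΩ_add_finsum` : **(H-RES iii-b)**
  `res_v (f du/u) + ∑_{z ≠ v} ord_z(u) f(z) = 0` for `f` regular away from `v`;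
* the `q`-expansion forms for a Laurent-series place `v` (`τ : F →+* K((q))`, `ord_v = order ∘ τ`):
  `coeff_eq_zero_of_regular_away`, `coeff_dlog_add_finsum`.
-/
import Mathlib
import Fermat.Agent.RR.ResidueGlob
import Fermat.Agent.T1B.HRes49.ResInfty
import Fermat.Agent.T1B.HRes49.ResLog

set_option autoImplicit false
set_option linter.unusedSectionVars false
set_option linter.style.haveILetI false

noncomputable section

namespace Fermat.Agent.T1B.HRes49

open AlgebraicCurve KaehlerDifferential HahnSeries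
open Fermat.Agent.X0.FF Fermat.Agent.RR Fermat.Agent.RR.LocalResMain
open Fermat.Agent.IG.PR.Theta20

variable {K F : Type*} [Field K] [Field F] [Algebra K F]
variable [IsAlgClosed K] [CharZero K] {x : F} (hx : IsGen K x)

/-! ### Splitting off one place -/

/-- The residues of a differential vanish at almost all places. -/
theorem finite_support_residue (ω : Ω[F⁄K]) :
    (Function.support fun z : Place K F => residue hx z ω).Finite :=
  (ResidueLocalInst.residueThmData hx (ResidueGlob.rg_global_fp_of_isGen hx)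
    (ResidueGlob.rg_global_zero_of_isGen hx)).finite_support_resΩ (residue hx)
    (fun v f g => residue_smul_D hx v f g) ω

/-- Splitting a finite-support `finsum` at one index. -/
theorem finsum_eq_add_finsum_ne {ι M : Type*} [AddCommMonoid M] (φ : ι → M)
    (hφ : (Function.support φ).Finite) (i : ι) :
    ∑ᶠ j, φ j = φ i + ∑ᶠ (j : ι) (_ : j ≠ i), φ j := by
  classical
  have h1 : ∑ᶠ j, φ j = ∑ᶠ j ∈ ({i} ∪ {j | j ≠ i} : Set ι), φ j := by
    have : ({i} ∪ {j | j ≠ i} : Set ι) = Set.univ := by
      ext j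
      refine ⟨fun _ => trivial, fun _ => ?_⟩
      by_cases hj : j = i
      · exact Or.inl hj
      · exact Or.inr hj
    rw [this, finsum_mem_univ]
  rw [h1, finsum_mem_union' (by
      rw [Set.disjoint_left]
      intro j hj hj'
      exact hj' hj) (hφ.subset Set.inter_subset_right) (hφ.subset Set.inter_subset_right),
    finsum_mem_singleton]
  rfl

/-- **Residue theorem, split at `v`**: `res_v ω + ∑_{z ≠ v} res_z ω = 0`. -/
theorem residue_add_finsum_ne (v : Place K F) (ω : Ω[F⁄K]) :
    residue hx v ω + ∑ᶠ (z : Place K F) (_ : z ≠ v), residue hx z ω = 0 := by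
  rw [← finsum_eq_add_finsum_ne (fun z : Place K F => residue hx z ω)
    (finite_support_residue hx ω) v]
  exact ResidueGlob.finsum_residue_eq_zero hx ω

/-! ### (iii-a): differentials regular away from `v` -/

/-- **(H-RES iii-a)** A differential which is regular away from `v` has residue zero at `v`. -/
theorem residue_eq_zero_of_regular_away (v : Place K F) (ω : Ω[F⁄K])
    (h : ∀ z : Place K F, z ≠ v → 0 ≤ z.ordDifferential ω) : residue hx v ω = 0 := by
  have h1 := residue_add_finsum_ne hx v ω
  have h2 : ∑ᶠ (z : Place K F) (_ : z ≠ v), residue hx z ω = 0 :=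
    finsum_mem_eq_zero_of_forall_eq_zero (s := {z : Place K F | z ≠ v})
      (fun z hz => residue_eq_zero hx z ω (h z hz))
  rwa [h2, add_zero] at h1

include hx in
/-- `f ω` is regular at `z` if `f` and `ω` are. -/
theorem ordDifferential_smul_nonneg (z : Place K F) {f : F} (hf : f ∈ z.toValuationSubring)
    {ω : Ω[F⁄K]} (hω : 0 ≤ z.ordDifferential ω) : 0 ≤ z.ordDifferential (f • ω) := by
  haveI := dCoordGenerates hx z
  haveI := nontrivial_kaehler hx
  have h0 : z.ordDifferential (0 : Ω[F⁄K]) = 0 := by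
    rw [Place.ordDifferential, z.differentialCoeff_zero, z.ord_zero]
  rcases eq_or_ne f 0 with rfl | hf0
  · rw [zero_smul, h0]
  rcases eq_or_ne ω 0 with rfl | hω0
  · rw [smul_zero, h0]
  rw [ordDifferential_smul' hx z hf0 hω0]
  exact add_nonneg (ffp_ord_nonneg_of_mem z hf) hω

/-- (iii-a), product form: `f` and `ω` regular away from `v` gives `res_v (f ω) = 0`. -/
theorem residue_smul_eq_zero_of_regular_away (v : Place K F) (f : F) (ω : Ω[F⁄K])
    (hf : ∀ z : Place K F, z ≠ v → f ∈ z.toValuationSubring)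
    (hω : ∀ z : Place K F, z ≠ v → 0 ≤ z.ordDifferential ω) : residue hx v (f • ω) = 0 :=
  residue_eq_zero_of_regular_away hx v (f • ω)
    (fun z hz => ordDifferential_smul_nonneg hx z (hf z hz) (hω z hz))

/-! ### (iii-b): logarithmic differentials -/

/-- **(H-RES iii-b)** `res_v (f du/u) + ∑_{z ≠ v} ord_z(u) f(z) = 0` for `f` regular away
from `v`. -/
theorem residue_dlogΩ_add_finsum (v : Place K F) {u : F} (hu : u ≠ 0) {f : F}
    (hf : ∀ z : Place K F, z ≠ v → f ∈ z.toValuationSubring) :
    residue hx v (f • dlogΩ (K := K) u) +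
      ∑ᶠ (z : Place K F) (_ : z ≠ v), (z.ord u : K) * valAt hx z f = 0 := by
  have h1 := residue_add_finsum_ne hx v (f • dlogΩ (K := K) u)
  have h2 : ∑ᶠ (z : Place K F) (_ : z ≠ v), residue hx z (f • dlogΩ (K := K) u) =
      ∑ᶠ (z : Place K F) (_ : z ≠ v), (z.ord u : K) * valAt hx z f :=
    finsum_congr fun z => finsum_congr fun hz => residue_smul_dlogΩ hx z hu (hf z hz)
  rwa [h2] at h1

/-- The support of `z ↦ ord_z(u) f(z)` is finite. -/
theorem finite_support_ord_mul_valAt {u : F} (hu : u ≠ 0) (f : F) :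
    (Function.support fun z : Place K F => (z.ord u : K) * valAt hx z f).Finite := by
  refine (ffq_finite_support_ord (Fermat.Agent.X0.FFGenus.ff1Data hx) hu).subset ?_
  intro z hz
  rw [Function.mem_support] at hz
  show z.ord u ≠ 0
  intro h0
  apply hz
  rw [h0, Int.cast_zero, zero_mul]

/-! ### `q`-expansion forms -/

section QForms

variable (τ : F →+* LaurentSeries K) (hτ : ∀ c : K, τ (algebraMap K F c) = HahnSeries.C c)
  (v : Place K F) (hv : ∀ f : F, f ≠ 0 → v.ord f = (τ f).order)

include hx hτ hv in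
/-- (iii-a), `q`-form: if `f h dg` is regular away from `v` then
`coeff_0 (τ f * (τ h * θ (τ g))) = 0`. -/
theorem coeff_eq_zero_of_regular_away (f h g : F)
    (hreg : ∀ z : Place K F, z ≠ v → 0 ≤ z.ordDifferential ((f * h) • D K F g)) :
    (τ f * (τ h * theta (τ g))).coeff 0 = 0 := by
  rw [← mul_assoc, ← map_mul, ← residue_smul_D_eq_coeff hx τ hτ v hv]
  exact residue_eq_zero_of_regular_away hx v _ hreg

include hx hτ hv in
/-- (iii-a), `q`-form with `f` and `ω = h dg` separately regular away from `v`. -/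
theorem coeff_eq_zero_of_regular_away' (f h g : F)
    (hf : ∀ z : Place K F, z ≠ v → f ∈ z.toValuationSubring)
    (hω : ∀ z : Place K F, z ≠ v → 0 ≤ z.ordDifferential (h • D K F g)) :
    (τ f * (τ h * theta (τ g))).coeff 0 = 0 := by
  apply coeff_eq_zero_of_regular_away hx τ hτ v hv
  intro z hz
  rw [mul_smul]
  exact ordDifferential_smul_nonneg hx z (hf z hz) (hω z hz)

include hx hτ hv in
/-- `res_v (f du/u) = coeff_0 (τ f * (θ (τ u) * (τ u)⁻¹))`. -/
theorem residue_smul_dlogΩ_eq_coeff (f u : F) :
    residue hx v (f • dlogΩ (K := K) u) = (τ f * (theta (τ u) * (τ u)⁻¹)).coeff 0 := by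
  unfold dlogΩ
  rw [smul_smul, residue_smul_D_eq_coeff hx τ hτ v hv, map_mul, map_inv₀]
  congr 1
  ring

include hx hτ hv in
/-- **(H-RES iii-b)**, `q`-form:
`coeff_0 (τ f * (θ (τ u) / τ u)) + ∑_{z ≠ v} ord_z(u) f(z) = 0` for `f` regular away from `v`. -/
theorem coeff_dlog_add_finsum {u : F} (hu : u ≠ 0) {f : F}
    (hf : ∀ z : Place K F, z ≠ v → f ∈ z.toValuationSubring) :
    (τ f * (theta (τ u) * (τ u)⁻¹)).coeff 0 +
      ∑ᶠ (z : Place K F) (_ : z ≠ v), (z.ord u : K) * valAt hx z f = 0 := by
  rw [← residue_smul_dlogΩ_eq_coeff hx τ hτ v hv]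
  exact residue_dlogΩ_add_finsum hx v hu hf

end QForms

end Fermat.Agent.T1B.HRes49
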