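/-
T1B / brick H, slice H-RES (helper49), file 5: **instantiation on `F = FF N ⊆ ℚbar((q))`** with
the place `∞ = inftyPlace N` (helper61) and the generator `j` (`HasCanDivInst.isGen N`).

Everything is stated for `f g u : FF N` and their `q`-expansions `(f : LaurentSeries ℚbar)`;
`theta = q d/dq` (`IG/PR/Theta20`), `dlog s = theta s * s⁻¹` (`T1B/Hecke7/DlogAlg`).

* `residue_infty_smul_D`   : **(i)** `res_∞ (f dg) = coeff_0 (f * θ g)`;
* `residue_smul_dlog`      : **(ii)** `res_z (f du/u) = ord_z(u) * f(z)` (`f` regular at `z`);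
* `coeff_zero_eq_zero_of_regular_away(')` : **(iii-a)** `coeff_0 (f * (h * θ g)) = 0` if `f h dg`
  is regular away from `∞`;
* `coeff_zero_mul_dlog_add_finsum`, `coeff_zero_mul_dlog_eq` : **(iii-b)**
  `coeff_0 (f * dlog u) = - ∑_{z ≠ ∞} ord_z(u) f(z)` for `f` regular away from `∞`.
-/
import Mathlib
import Fermat.Agent.MW.NCA61.InfPlace
import Fermat.Agent.T1B.Hecke7.DlogAlg
import Fermat.Agent.T1B.HRes49.Sums

set_option autoImplicit false
set_option linter.unusedSectionVars false
set_option synthInstance.maxHeartbeats 400000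
set_option maxHeartbeats 1000000

noncomputable section

namespace Fermat.Agent.T1B.HRes49

open AlgebraicCurve KaehlerDifferential HahnSeries
open Fermat.Agent.X0 Fermat.Agent.X0.FF Fermat.Agent.RR Fermat.Agent.RR.LocalResMain
open Fermat.Agent.IG.PR.Theta20 Fermat.Agent.MW.NCA61.InfPlace
open Fermat.Agent.ES.N34.ModEqBar23 Fermat.Agent.T1B.Hecke7

variable (N : ℕ) [NeZero N]

/-- The generator `j` of `FF N`. -/
theorem isGenJ : IsGen Kbar (jF N) := HasCanDivInst.isGen N

/-- The value `f(z)` of `f : FF N` at a place `z` (`0` if `f` has a pole at `z`). -/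
def valueAt (z : Place Kbar (FF N)) (f : FF N) : Kbar := valAt (isGenJ N) z f

theorem valueAt_eq_iff (z : Place Kbar (FF N)) {f : FF N} (h : f ∈ z.toValuationSubring)
    (c : Kbar) :
    valueAt N z f = c ↔
      (f = algebraMap Kbar (FF N) c ∨ 0 < z.ord (f - algebraMap Kbar (FF N) c)) :=
  valAt_eq_iff (isGenJ N) z h c

theorem valueAt_eq_valueHom (z : Place Kbar (FF N)) {f : FF N} (h : f ∈ z.toValuationSubring) :
    valueAt N z f = Fermat.Agent.ES.RED.PlaceValue13.valueHom (isGenJ N) z ⟨f, h⟩ :=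
  valAt_of_mem (isGenJ N) z h

theorem inftyPlace_ord' : ∀ f : FF N, f ≠ 0 → (inftyPlace N).ord f = (valHom N f).order :=
  fun _ hf => inftyPlace_ord N hf

/-- **(H-RES i)** `res_∞ (f dg) = coeff_0 (f * θ g)`. -/
theorem residue_infty_smul_D (f g : FF N) :
    residue (isGenJ N) (inftyPlace N) (f • D Kbar (FF N) g) =
      ((f : LaurentSeries Kbar) * theta (g : LaurentSeries Kbar)).coeff 0 :=
  residue_smul_D_eq_coeff (isGenJ N) (valHom N) (valHom_const N) (inftyPlace N)
    (inftyPlace_ord' N) f g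

/-- **(H-RES ii)** `res_z (f du/u) = ord_z(u) * f(z)` for `f` regular at `z`. -/
theorem residue_smul_dlog (z : Place Kbar (FF N)) {u f : FF N} (hu : u ≠ 0)
    (hf : f ∈ z.toValuationSubring) :
    residue (isGenJ N) z (f • u⁻¹ • D Kbar (FF N) u) = (z.ord u : Kbar) * valueAt N z f :=
  residue_smul_dlogΩ (isGenJ N) z hu hf

/-- **(H-RES iii-a)** if `f h dg` is regular away from `∞` then `coeff_0 (f * (h * θ g)) = 0`. -/
theorem coeff_zero_eq_zero_of_regular_away (f h g : FF N)
    (hreg : ∀ z : Place Kbar (FF N), z ≠ inftyPlace N →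
      0 ≤ z.ordDifferential ((f * h) • D Kbar (FF N) g)) :
    ((f : LaurentSeries Kbar) *
      ((h : LaurentSeries Kbar) * theta (g : LaurentSeries Kbar))).coeff 0 = 0 :=
  coeff_eq_zero_of_regular_away (isGenJ N) (valHom N) (valHom_const N) (inftyPlace N)
    (inftyPlace_ord' N) f h g hreg

/-- **(H-RES iii-a)**, with `f` and `ω = h dg` separately regular away from `∞`. -/
theorem coeff_zero_eq_zero_of_regular_away' (f h g : FF N)
    (hf : ∀ z : Place Kbar (FF N), z ≠ inftyPlace N → f ∈ z.toValuationSubring)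
    (hω : ∀ z : Place Kbar (FF N), z ≠ inftyPlace N →
      0 ≤ z.ordDifferential (h • D Kbar (FF N) g)) :
    ((f : LaurentSeries Kbar) *
      ((h : LaurentSeries Kbar) * theta (g : LaurentSeries Kbar))).coeff 0 = 0 :=
  coeff_eq_zero_of_regular_away' (isGenJ N) (valHom N) (valHom_const N) (inftyPlace N)
    (inftyPlace_ord' N) f h g hf hω

/-- **(H-RES iii-b)** `coeff_0 (f * dlog u) + ∑_{z ≠ ∞} ord_z(u) f(z) = 0` for `f` regular away
from `∞`. -/
theorem coeff_zero_mul_dlog_add_finsum {u : FF N} (hu : u ≠ 0) {f : FF N}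
    (hf : ∀ z : Place Kbar (FF N), z ≠ inftyPlace N → f ∈ z.toValuationSubring) :
    ((f : LaurentSeries Kbar) * dlog (u : LaurentSeries Kbar)).coeff 0 +
      ∑ᶠ (z : Place Kbar (FF N)) (_ : z ≠ inftyPlace N),
        (z.ord u : Kbar) * valueAt N z f = 0 :=
  coeff_dlog_add_finsum (isGenJ N) (valHom N) (valHom_const N) (inftyPlace N)
    (inftyPlace_ord' N) hu hf

/-- **(H-RES iii-b)**, solved for the coefficient. -/
theorem coeff_zero_mul_dlog_eq {u : FF N} (hu : u ≠ 0) {f : FF N}
    (hf : ∀ z : Place Kbar (FF N), z ≠ inftyPlace N → f ∈ z.toValuationSubring) :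
    ((f : LaurentSeries Kbar) * dlog (u : LaurentSeries Kbar)).coeff 0 =
      -∑ᶠ (z : Place Kbar (FF N)) (_ : z ≠ inftyPlace N),
        (z.ord u : Kbar) * valueAt N z f :=
  eq_neg_of_add_eq_zero_left (coeff_zero_mul_dlog_add_finsum N hu hf)

/-- The sum in (iii-b) is finite: the summand vanishes off the (finite) support of `div u`. -/
theorem finite_support_ord_mul_valueAt {u : FF N} (hu : u ≠ 0) (f : FF N) :
    (Function.support fun z : Place Kbar (FF N) => (z.ord u : Kbar) * valueAt N z f).Finite :=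
  finite_support_ord_mul_valAt (isGenJ N) hu f

end Fermat.Agent.T1B.HRes49
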