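/-
T1B / brick H, slice H-RES (helper49), file 6: **the two deliverables in helper13's exact shapes**
(`T1B/Hol13/Plan.lean`):

* `res1 N : Hol13.RES1 N` — `⟨h θ(j), f⟩ = 0` for `h dj` regular and `f` regular away from `∞`;
* `res2 N : Hol13.RES2 N` — `⟨dlog u, f⟩ = - ∑_{z ≠ ∞} ord_z(u) • f(z)` for `f` regular away
  from `∞`.

Both follow from `HRes49/Inst.lean` (general formula `res_∞ (f dg) = coeff_0 (f θ g)` for ALL
`f, g`, so no chain rule is needed) and `HForm79.thetaJ_eq_theta_jF`.
-/
import Mathlib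
import Fermat.Agent.T1B.Hol13.Plan
import Fermat.Agent.T1B.HForm79.Theta
import Fermat.Agent.T1B.HRes49.Inst

set_option autoImplicit false
set_option linter.unusedSectionVars false
set_option synthInstance.maxHeartbeats 400000
set_option maxHeartbeats 1000000

noncomputable section

namespace Fermat.Agent.T1B.HRes49

open AlgebraicCurve KaehlerDifferential HahnSeries
open Fermat.Agent.X0 Fermat.Agent.X0.FF Fermat.Agent.RR Fermat.Agent.RR.LocalResMain
open Fermat.Agent.IG.PR.Theta20 Fermat.Agent.MW.NCA61.InfPlace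
open Fermat.Agent.ES.N34.ModEqBar23 Fermat.Agent.T1B.Hecke7 Fermat.Agent.T1B.Hol13

variable (N : ℕ) [NeZero N]

/-- **H-RES1** in the shape of `Hol13/Plan.lean`. -/
theorem res1 : RES1 N := by
  intro h f hreg hf
  unfold pair
  rw [Fermat.Agent.T1B.HForm79.thetaJ_eq_theta_jF N, mul_comm]
  exact coeff_zero_eq_zero_of_regular_away' N f h (jF N) hf (fun z _ => hreg z)

/-- **H-RES2** in the shape of `Hol13/Plan.lean`. -/
theorem res2 : RES2 N := by
  intro u f hu hf
  unfold pair
  rw [mul_comm, coeff_zero_mul_dlog_eq N hu hf]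
  congr 1
  rw [← finsum_subtype_eq_finsum_cond
    (f := fun z : Place Kbar (FF N) => (z.ord u : Kbar) * valueAt N z f)
    (fun z : Place Kbar (FF N) => z ≠ inftyPlace N)]
  refine finsum_congr fun z => ?_
  rw [valueAt_eq_valueHom N z.1 (hf z.1 z.2), zsmul_eq_mul]

end Fermat.Agent.T1B.HRes49
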